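/-
S52P (3–5 switch), brick **(AP)** (helper58): an injective, Galois-equivariant additive map
`φ : W[5] →+ W'[5]` (on the Prelude's carrier `Ep W 5 = torsionBy ℤ (EPt W) 5`) forces
`a_ℓ(W') ≡ a_ℓ(W) (mod 5)` at every common good prime `ℓ ≠ 5`.

Proof: a Frobenius lift `σ` at `ℓ` satisfies `σ² - a_ℓ(W) σ + ℓ = 0` on `W[5]` and
`σ² - a_ℓ(W') σ + ℓ = 0` on `W'[5]` (`S58.FrobFinal.frobQuad`).  Transporting the first relation
along the map and subtracting gives `(a_ℓ(W') - a_ℓ(W)) • σ P' = 0` for the image `P'` of a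
nonzero point of order 5; if `5 ∤ a_ℓ(W') - a_ℓ(W)` this forces `P' = 0`.

Self-contained: imports only files of landed closures (S58, Lib).
-/
import Mathlib
import Fermat.Agent.S58.FrobFinal
import Fermat.Agent.S58.EpRep
import Fermat.Agent.Lib.FrobeniusExists
import Fermat.Agent.Lib.ECBiquad.Main

set_option autoImplicit false

namespace Fermat.Agent.S52P.ApCongr58

open Fermat.Agent.S58 Fermat.Agent.S58.EpRep WeierstrassCurve
open scoped WeierstrassCurve.Affine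

/-- the Galois action commutes with natural multiples. -/
theorem smul_nsmul_pt (W : WeierstrassCurve ℤ) (σ : GQ) (n : ℕ) (P : EPt W) :
    σ • (n • P) = n • (σ • P) :=
  map_nsmul (DistribSMul.toAddMonoidHom (EPt W) σ) n P

theorem tors_smul (W : WeierstrassCurve ℤ) (σ : GQ) {P : EPt W} (hP : (5 : ℕ) • P = 0) :
    (5 : ℕ) • (σ • P) = 0 := by
  rw [← smul_nsmul_pt, hP]
  exact map_zero (DistribSMul.toAddMonoidHom (EPt W) σ)

theorem tors_add {W : WeierstrassCurve ℤ} {P Q : EPt W} (hP : (5 : ℕ) • P = 0)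
    (hQ : (5 : ℕ) • Q = 0) : (5 : ℕ) • (P + Q) = 0 := by
  rw [nsmul_add, hP, hQ, add_zero]

theorem tors_neg {W : WeierstrassCurve ℤ} {P : EPt W} (hP : (5 : ℕ) • P = 0) :
    (5 : ℕ) • (-P) = 0 := by
  rw [neg_nsmul, hP, neg_zero]

theorem tors_zsmul {W : WeierstrassCurve ℤ} (n : ℤ) {P : EPt W} (hP : (5 : ℕ) • P = 0) :
    (5 : ℕ) • (n • P) = 0 := by
  rw [← natCast_zsmul, ← mul_zsmul, mul_comm, mul_zsmul, natCast_zsmul, hP, zsmul_zero]

theorem tors_nsmul {W : WeierstrassCurve ℤ} (n : ℕ) {P : EPt W} (hP : (5 : ℕ) • P = 0) :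
    (5 : ℕ) • (n • P) = 0 := by
  have h := tors_zsmul (n : ℤ) hP
  rwa [natCast_zsmul] at h

section Transport

variable {W W' : WeierstrassCurve ℤ} (ψ : EPt W → EPt W')
  (hadd : ∀ P Q : EPt W, (5 : ℕ) • P = 0 → (5 : ℕ) • Q = 0 → ψ (P + Q) = ψ P + ψ Q)
include hadd

theorem psi_zero : ψ 0 = 0 := by
  have h := hadd 0 0 (nsmul_zero 5) (nsmul_zero 5)
  rw [add_zero] at h
  have h2 : ψ 0 + 0 = ψ 0 + ψ 0 := by rw [add_zero]; exact h
  exact (add_left_cancel h2).symm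

theorem psi_neg {P : EPt W} (hP : (5 : ℕ) • P = 0) : ψ (-P) = -ψ P := by
  have h := hadd P (-P) hP (tors_neg hP)
  rw [add_neg_cancel, psi_zero ψ hadd] at h
  exact (neg_eq_of_add_eq_zero_right h.symm).symm

theorem psi_nsmul (n : ℕ) {P : EPt W} (hP : (5 : ℕ) • P = 0) : ψ (n • P) = n • ψ P := by
  induction n with
  | zero => rw [zero_nsmul, zero_nsmul]; exact psi_zero ψ hadd
  | succ n ih => rw [succ_nsmul, succ_nsmul, hadd _ _ (tors_nsmul n hP) hP, ih]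

theorem psi_zsmul (n : ℤ) {P : EPt W} (hP : (5 : ℕ) • P = 0) : ψ (n • P) = n • ψ P := by
  obtain ⟨k, rfl | rfl⟩ := Int.eq_nat_or_neg n
  · rw [natCast_zsmul, natCast_zsmul]; exact psi_nsmul ψ hadd k hP
  · rw [neg_zsmul, neg_zsmul, natCast_zsmul, natCast_zsmul,
      psi_neg ψ hadd (tors_nsmul k hP), psi_nsmul ψ hadd k hP]

theorem psi_tors {P : EPt W} (hP : (5 : ℕ) • P = 0) : (5 : ℕ) • ψ P = 0 := by
  rw [← psi_nsmul ψ hadd 5 hP, hP]; exact psi_zero ψ hadd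

end Transport

/-- **(AP), point-map form**: an additive, injective, Galois-equivariant map `W[5] → W'[5]`
(given on points, with the three properties required on 5-torsion points only) gives the
congruence of the `a_ℓ`. -/
theorem ap_of_pointMap (W W' : WeierstrassCurve ℤ) (hΔ : W.Δ ≠ 0) (ψ : EPt W → EPt W')
    (hadd : ∀ P Q : EPt W, (5 : ℕ) • P = 0 → (5 : ℕ) • Q = 0 → ψ (P + Q) = ψ P + ψ Q)
    (hinj : ∀ P : EPt W, (5 : ℕ) • P = 0 → ψ P = 0 → P = 0)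
    (heq : ∀ (σ : GQ) (P : EPt W), (5 : ℕ) • P = 0 → ψ (σ • P) = σ • ψ P)
    (ℓ : ℕ) (hℓ : ℓ.Prime) (hg : W.IsGoodPrimeFor ℓ) (hg' : W'.IsGoodPrimeFor ℓ) (hℓ5 : ℓ ≠ 5) :
    (5 : ℤ) ∣ W'.apOfModel ℓ - W.apOfModel ℓ := by
  obtain ⟨A, σ, hA, hσ⟩ := Fermat.Agent.Lib.FrobeniusExists.exists_isFrobeniusAt hℓ
  -- a nonzero point of order 5 on `W`
  have := Fermat.Agent.Lib.ECBiquad.nontrivial_torsionBy_int W hΔ (n := 5) (by norm_num)
  obtain ⟨x, hx⟩ := exists_ne (0 : Submodule.torsionBy ℤ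
      ((W.map (Int.castRingHom ℚ))⁄(AlgebraicClosure ℚ)).Point ((5 : ℕ) : ℤ))
  have hP5 : (5 : ℕ) • (x : EPt W) = 0 := by
    have h := x.2
    rw [Submodule.mem_torsionBy_iff] at h
    rw [← natCast_zsmul]; exact h
  have hP0 : (x : EPt W) ≠ 0 := fun h => hx (Subtype.ext h)
  generalize (x : EPt W) = P at hP5 hP0
  have hcop : (5 : ℕ).Coprime ℓ := by
    rw [Nat.coprime_primes (by norm_num) hℓ]; exact fun h => hℓ5 h.symm
  -- the two quadratic relations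
  have h1 := FrobFinal.frobQuad W ℓ hℓ hg A hA σ hσ 5 hcop P hP5
  have hP'5 : (5 : ℕ) • ψ P = 0 := psi_tors ψ hadd hP5
  have h2 := FrobFinal.frobQuad W' ℓ hℓ hg' A hA σ hσ 5 hcop (ψ P) hP'5
  -- transport the first relation
  have hσP : (5 : ℕ) • (σ • P) = 0 := tors_smul W σ hP5
  have hσσP : (5 : ℕ) • (σ • σ • P) = 0 := tors_smul W σ hσP
  have h1' : σ • σ • ψ P - W.apOfModel ℓ • σ • ψ P + (ℓ : ℤ) • ψ P = 0 := by
    have e := congrArg ψ h1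
    rw [psi_zero ψ hadd, sub_eq_add_neg,
      hadd _ _ (tors_add hσσP (tors_neg (tors_zsmul _ hσP))) (tors_zsmul _ hP5),
      hadd _ _ hσσP (tors_neg (tors_zsmul _ hσP)),
      psi_neg ψ hadd (tors_zsmul _ hσP), psi_zsmul ψ hadd _ hσP, psi_zsmul ψ hadd _ hP5,
      heq σ _ hσP, heq σ _ hP5, ← sub_eq_add_neg] at e
    exact e
  -- subtract
  have h3 : (W'.apOfModel ℓ - W.apOfModel ℓ) • (σ • ψ P) = 0 := by
    have : (W'.apOfModel ℓ - W.apOfModel ℓ) • (σ • ψ P) =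
        (σ • σ • ψ P - W.apOfModel ℓ • σ • ψ P + (ℓ : ℤ) • ψ P) -
        (σ • σ • ψ P - W'.apOfModel ℓ • σ • ψ P + (ℓ : ℤ) • ψ P) := by
      rw [sub_zsmul]; abel
    rw [this, h1', h2, sub_zero]
  by_contra hndvd
  have hco : IsCoprime (W'.apOfModel ℓ - W.apOfModel ℓ) (5 : ℤ) := by
    have hp5 : Prime (5 : ℤ) := by norm_num
    exact (hp5.coprime_iff_not_dvd.mpr hndvd).symm
  obtain ⟨u, v, huv⟩ := hco
  have hσP' : (5 : ℕ) • (σ • ψ P) = 0 := tors_smul W' σ hP'5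
  have h4 : σ • ψ P = 0 := by
    have h5 : (5 : ℤ) • (σ • ψ P) = 0 := by
      have := hσP'
      rw [← natCast_zsmul] at this
      exact_mod_cast this
    calc σ • ψ P = (1 : ℤ) • (σ • ψ P) := (one_zsmul _).symm
      _ = (u * (W'.apOfModel ℓ - W.apOfModel ℓ) + v * 5) • (σ • ψ P) := by rw [huv]
      _ = 0 := by rw [add_zsmul, mul_zsmul, mul_zsmul, h3, h5, zsmul_zero, zsmul_zero, add_zero]
  have h6 : ψ P = 0 := (smul_eq_zero_iff_eq σ).mp h4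
  exact hP0 (hinj P hP5 h6)


theorem mem_Ep_iff {W : WeierstrassCurve ℤ} (P : EPt W) :
    P ∈ Submodule.torsionBy ℤ (EPt W) ((5 : ℕ) : ℤ) ↔ (5 : ℕ) • P = 0 := by
  rw [Submodule.mem_torsionBy_iff, natCast_zsmul]

/-- **(AP)**, the `Ep`-form. -/
theorem ap_congr (W W' : WeierstrassCurve ℤ) (hΔ : W.Δ ≠ 0) (hΔ' : W'.Δ ≠ 0)
    (φ : Ep W 5 →+ Ep W' 5) (hφ : Function.Injective φ)
    (heq : ∀ (σ : GQ) (x : Ep W 5), φ (σ • x) = σ • φ x) (ℓ : ℕ) (hℓ : ℓ.Prime)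
    (hg : W.IsGoodPrimeFor ℓ) (hg' : W'.IsGoodPrimeFor ℓ) (h : ℓ ≠ 5) :
    (5 : ℤ) ∣ W'.apOfModel ℓ - W.apOfModel ℓ := by
  classical
  refine ap_of_pointMap W W' hΔ
    (fun P => if h : (5 : ℕ) • P = 0 then ((φ ⟨P, (mem_Ep_iff P).mpr h⟩ : Ep W' 5) : EPt W')
      else 0) ?_ ?_ ?_ ℓ hℓ hg hg' h
  · intro P Q hP hQ
    have hPQ : (5 : ℕ) • (P + Q) = 0 := tors_add hP hQ
    simp only [dif_pos hP, dif_pos hQ, dif_pos hPQ]
    have : (⟨P + Q, (mem_Ep_iff _).mpr hPQ⟩ : Ep W 5) =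
        ⟨P, (mem_Ep_iff P).mpr hP⟩ + ⟨Q, (mem_Ep_iff Q).mpr hQ⟩ := rfl
    rw [this, map_add]
    rfl
  · intro P hP h0
    simp only [dif_pos hP] at h0
    have h1 : φ ⟨P, (mem_Ep_iff P).mpr hP⟩ = 0 := Subtype.ext h0
    have h2 : (⟨P, (mem_Ep_iff P).mpr hP⟩ : Ep W 5) = 0 := hφ (by rw [h1, map_zero])
    exact congrArg Subtype.val h2
  · intro σ P hP
    have hσP : (5 : ℕ) • (σ • P) = 0 := tors_smul W σ hP
    simp only [dif_pos hP, dif_pos hσP]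
    have : (⟨σ • P, (mem_Ep_iff _).mpr hσP⟩ : Ep W 5) = σ • ⟨P, (mem_Ep_iff P).mpr hP⟩ := rfl
    rw [this, heq]
    rfl

end Fermat.Agent.S52P.ApCongr58
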