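/-
S52P (the 3-5 switch, row 46): THE TOP SEAM (helper23).

The seven interface statements of the design (each a `Prop`; the producers prove them as theorems
`Fermat.Agent.S52P.<name>_holds`), and the proof of the frozen statement of S52 from them.

Notation: `EpT W p` is `E[p](ℚ̄)` of the integral model `W` (the Prelude's carrier; it is main's
`Fermat.Agent.S58.EpRep.Ep W p` by unfolding abbreviations), `GalQ = Gal(ℚ̄/ℚ)`;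
`famH`, `famT`, `quart3` are the explicit forms of `Fermat/Agent/S52P/Klein/Defs.lean`.
-/
import Mathlib
import Fermat.Prelude.Def_FLTPrelim_GaloisRep
import Fermat.Prelude.Def_FLTPrelim_Modularity
import Fermat.Prelude.Def_FLTPrelim_ModularRep
import Fermat.Agent.S52P.Klein.Defs

set_option autoImplicit false

namespace Fermat.Agent.S52P

open WeierstrassCurve Fermat.Agent.S52P.Klein
open scoped WeierstrassCurve.Affine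

/-- `Gal(ℚ̄/ℚ)`. -/
abbrev GalQ : Type := AlgebraicClosure ℚ ≃ₐ[ℚ] AlgebraicClosure ℚ

/-- `E[p](ℚ̄)` for the integral model `W` (the Prelude's carrier). -/
abbrev EpT (W : WeierstrassCurve ℤ) (p : ℕ) : Type :=
  Submodule.torsionBy ℤ ((W.map (Int.castRingHom ℚ)).toAffine⁄(AlgebraicClosure ℚ)).Point p

/-- (L0) a semistable model has `c₄ c₆ ≠ 0`. -/
def L0 : Prop :=
  ∀ W : WeierstrassCurve ℤ, W.Δ ≠ 0 → W.IsSemistableModel → W.c₄ ≠ 0 ∧ W.c₆ ≠ 0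

/-- (HIT) some member `m ≡ 1 mod n` of the family has a 3-division quartic without integer root. -/
def HIT : Prop :=
  ∀ c₄ c₆ : ℤ, c₄ ≠ 0 → c₆ ≠ 0 → c₄ ^ 3 ≠ c₆ ^ 2 → ∀ n : ℤ, n ≠ 0 →
    ∃ m : ℤ, m ≡ 1 [ZMOD n] ∧ ∀ z : ℤ, quart3 (famH c₄ c₆ m n) (famT c₄ c₆ m n) z ≠ 0

/-- (MOD) an integral model with the invariants of the member `(m, n)`, `1728 ∣ n`. -/
def MOD : Prop :=
  ∀ (W : WeierstrassCurve ℤ) (m n : ℤ), (1728 : ℤ) ∣ n →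
    ∃ W' : WeierstrassCurve ℤ, W'.c₄ = famH W.c₄ W.c₆ m n ∧ W'.c₆ = famT W.c₄ W.c₆ m n

/-- (SS) the member `(m, n)` is semistable with `Δ ≠ 0` when `1728·30·Δ ∣ n` and `(m, n) = 1`. -/
def SS : Prop :=
  ∀ W : WeierstrassCurve ℤ, W.Δ ≠ 0 → W.IsSemistableModel →
    ∀ (W' : WeierstrassCurve ℤ) (m n : ℤ), W'.c₄ = famH W.c₄ W.c₆ m n →
      W'.c₆ = famT W.c₄ W.c₆ m n → 1728 * 30 * W.Δ ∣ n → IsCoprime m n →
      W'.Δ ≠ 0 ∧ W'.IsSemistableModel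

/-- (IRR3) no integer root of the 3-division quartic ⟹ `E[3]` irreducible. -/
def IRR3 : Prop :=
  ∀ W' : WeierstrassCurve ℤ, W'.Δ ≠ 0 → (∀ z : ℤ, quart3 W'.c₄ W'.c₆ z ≠ 0) →
    W'.ModRepIsIrreducible 3

/-- (ISO) the member `(m, n)` has the same `E[5]` as `W`, as a Galois module. -/
def ISO : Prop :=
  ∀ W : WeierstrassCurve ℤ, W.Δ ≠ 0 → W.c₄ ≠ 0 → W.c₆ ≠ 0 → W.ModRepIsIrreducible 5 →
    ∀ W' : WeierstrassCurve ℤ, W'.Δ ≠ 0 → ∀ m n : ℤ, m ≠ 0 →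
      W'.c₄ = famH W.c₄ W.c₆ m n → W'.c₆ = famT W.c₄ W.c₆ m n →
      ∃ φ : EpT W 5 →+ EpT W' 5, Function.Injective φ ∧
        ∀ (σ : GalQ) (x : EpT W 5), φ (σ • x) = σ • φ x

/-- (AP) an injective equivariant additive map `E[5] → E'[5]` gives `a_ℓ ≡ a_ℓ' mod 5`. -/
def AP : Prop :=
  ∀ W W' : WeierstrassCurve ℤ, W.Δ ≠ 0 → W'.Δ ≠ 0 →
    ∀ φ : EpT W 5 →+ EpT W' 5, Function.Injective φ →
      (∀ (σ : GalQ) (x : EpT W 5), φ (σ • x) = σ • φ x) →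
      ∀ ℓ : ℕ, ℓ.Prime → W.IsGoodPrimeFor ℓ → W'.IsGoodPrimeFor ℓ → ℓ ≠ 5 →
        (5 : ℤ) ∣ (W'.apOfModel ℓ - W.apOfModel ℓ)

/-- **The top seam**: the frozen statement of S52 from the seven bricks. -/
theorem top (h0 : L0) (hH : HIT) (hM : MOD) (hS : SS) (hI : IRR3) (hiso : ISO) (hap : AP)
    (W : WeierstrassCurve ℤ) (hΔ : W.Δ ≠ 0) (hW : W.IsSemistableModel)
    (h5 : W.ModRepIsIrreducible 5) :
    ∃ W' : WeierstrassCurve ℤ, W'.Δ ≠ 0 ∧ W'.IsSemistableModel ∧ W'.ModRepIsIrreducible 3 ∧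
      ∀ ℓ : ℕ, ℓ.Prime → W.IsGoodPrimeFor ℓ → W'.IsGoodPrimeFor ℓ → ℓ ≠ 5 →
        (5 : ℤ) ∣ (W'.apOfModel ℓ - W.apOfModel ℓ) := by
  obtain ⟨h4, h6⟩ := h0 W hΔ hW
  have hd : W.c₄ ^ 3 ≠ W.c₆ ^ 2 := by
    intro h
    have hrel := W.c_relation
    rw [h, sub_self] at hrel
    rcases mul_eq_zero.mp hrel with h' | h'
    · norm_num at h'
    · exact hΔ h'
  have hn0 : (1728 * 30 * W.Δ : ℤ) ≠ 0 := mul_ne_zero (by norm_num) hΔ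
  obtain ⟨m, hm, hroot⟩ := hH W.c₄ W.c₆ h4 h6 hd (1728 * 30 * W.Δ) hn0
  obtain ⟨k, hk⟩ : ∃ k : ℤ, m = 1 + (1728 * 30 * W.Δ) * k := by
    have h1 := (Int.modEq_iff_dvd.mp hm.symm)
    obtain ⟨k, hk⟩ := h1
    exact ⟨k, by linarith⟩
  have hcop : IsCoprime m (1728 * 30 * W.Δ) := ⟨1, -k, by rw [hk]; ring⟩
  have hm0 : m ≠ 0 := by
    intro hm0
    rw [hm0] at hk
    have hdvd : (2 : ℤ) ∣ 1 := ⟨-(864 * 30 * W.Δ * k), by linarith⟩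
    norm_num at hdvd
  obtain ⟨W', h4', h6'⟩ := hM W m (1728 * 30 * W.Δ) ⟨30 * W.Δ, by ring⟩
  obtain ⟨hΔ', hss⟩ := hS W hΔ hW W' m (1728 * 30 * W.Δ) h4' h6' dvd_rfl hcop
  refine ⟨W', hΔ', hss, hI W' hΔ' (by rw [h4', h6']; exact hroot), ?_⟩
  obtain ⟨φ, hφ, heq⟩ := hiso W hΔ h4 h6 h5 W' hΔ' m (1728 * 30 * W.Δ) hm0 h4' h6'
  exact hap W W' hΔ hΔ' φ hφ heq

end Fermat.Agent.S52P
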