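/-
S52P (3–5 switch), brick **(AP)** (helper58): the seam literal `AP` of `S52P/Seam.lean`, from
`ApCongr58.ap_congr` (an injective equivariant additive map `W[5] → W'[5]` gives
`a_ℓ(W') ≡ a_ℓ(W) (mod 5)` at the common good primes `ℓ ≠ 5`).
-/
import Mathlib
import Fermat.Agent.S52P.Seam
import Fermat.Agent.S52P.ApCongr58

set_option autoImplicit false

namespace Fermat.Agent.S52P.AP58

/-- **(AP)**, the literal of `Seam.lean`. -/
theorem ap : AP := fun W W' hΔ hΔ' φ hφ heq ℓ hℓ hg hg' h =>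
  ApCongr58.ap_congr W W' hΔ hΔ' φ hφ heq ℓ hℓ hg hg' h

end Fermat.Agent.S52P.AP58
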