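import Mathlib

set_option autoImplicit false

namespace Fermat.Agent.S52P.Base49

open Polynomial

variable {K : Type*} [Field K]

/-- Klein's `eta` at `(a, 1)`. -/
def e1 (a : K) : K := a ^ 4 - 228 * a ^ 3 + 494 * a ^ 2 + 228 * a + 1

/-- Klein's `theta` at `(a, 1)`. -/
def t1 (a : K) : K := a ^ 6 + 522 * a ^ 5 - 10005 * a ^ 4 - 10005 * a ^ 2 - 522 * a + 1

/-- Klein's `phi` at `(a, 1)`. -/
def p1 (a : K) : K := a ^ 2 + 11 * a - 1

theorem syz1 (a : K) : e1 a ^ 3 - t1 a ^ 2 = -1728 * (a * p1 a ^ 5) := by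
  unfold e1 t1 p1; ring

theorem e1_eq (a : K) : e1 a = (a ^ 2 - 239 * a + 3124) * p1 a + 3125 * (1 - 11 * a) := by
  unfold e1 p1; ring

/-- `eta(a,1)` and `theta(a,1)` have no common zero (characteristic zero). -/
theorem not_e1_t1 [CharZero K] (a : K) (he : e1 a = 0) (ht : t1 a = 0) : False := by
  have hs := syz1 a
  rw [he, ht] at hs
  have h0 : a * p1 a ^ 5 = 0 := by
    have h1728 : (-1728 : K) ≠ 0 := by norm_num
    have : (-1728 : K) * (a * p1 a ^ 5) = 0 := by rw [← hs]; ring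
    exact (mul_eq_zero.mp this).resolve_left h1728
  rcases mul_eq_zero.mp h0 with ha | hp
  · rw [ha] at he
    unfold e1 at he
    norm_num at he
  · have hp' : p1 a = 0 := pow_eq_zero_iff (by norm_num) |>.mp hp
    have h2 := e1_eq a
    rw [he, hp'] at h2
    have h3 : (1 : K) - 11 * a = 0 := by
      have h3125 : (3125 : K) ≠ 0 := by norm_num
      have : (3125 : K) * (1 - 11 * a) = 0 := by rw [h2]; ring
      exact (mul_eq_zero.mp this).resolve_left h3125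
    -- p1 a = 0 gives a^2 = 1 - 11 a = 0
    have h4 : a ^ 2 = 0 := by
      have : a ^ 2 = 1 - 11 * a := by unfold p1 at hp'; linear_combination hp'
      rw [this, h3]
    have h5 : a = 0 := pow_eq_zero_iff (by norm_num) |>.mp h4
    rw [h5] at h3
    norm_num at h3

/-- The polynomial `X^4 - 228 X^3 + 494 X^2 + 228 X + 1`. -/
noncomputable def ePoly (K : Type*) [Field K] : K[X] :=
  X ^ 4 - C 228 * X ^ 3 + C 494 * X ^ 2 + C 228 * X + 1

/-- The polynomial `X^6 + 522 X^5 - 10005 X^4 - 10005 X^2 - 522 X + 1`. -/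
noncomputable def tPoly (K : Type*) [Field K] : K[X] :=
  X ^ 6 + C 522 * X ^ 5 - C 10005 * X ^ 4 - C 10005 * X ^ 2 - C 522 * X + 1

theorem ePoly_eval (a : K) : (ePoly K).eval a = e1 a := by
  unfold ePoly e1; simp

theorem tPoly_eval (a : K) : (tPoly K).eval a = t1 a := by
  unfold tPoly t1; simp

theorem ePoly_natDegree : (ePoly K).natDegree = 4 := by
  unfold ePoly; compute_degree!

theorem tPoly_natDegree : (tPoly K).natDegree = 6 := by
  unfold tPoly; compute_degree!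

theorem ePoly_monic : (ePoly K).Monic := by
  unfold ePoly; monicity!

theorem tPoly_monic : (tPoly K).Monic := by
  unfold tPoly; monicity!

theorem exists_root_aux [IsAlgClosed K] (c₄ c₆ : K) (hd : c₄ ^ 3 ≠ c₆ ^ 2) :
    ∃ a : K, c₆ ^ 2 * e1 a ^ 3 - c₄ ^ 3 * t1 a ^ 2 = 0 := by
  set P : K[X] := C (c₆ ^ 2) * ePoly K ^ 3 - C (c₄ ^ 3) * tPoly K ^ 2 with hP
  have hE3 : (ePoly K ^ 3).coeff 12 = 1 := by
    have h := (ePoly_monic (K := K).pow 3).coeff_natDegree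
    rwa [(ePoly_monic (K := K)).natDegree_pow, ePoly_natDegree] at h
  have hT2 : (tPoly K ^ 2).coeff 12 = 1 := by
    have h := (tPoly_monic (K := K).pow 2).coeff_natDegree
    rwa [(tPoly_monic (K := K)).natDegree_pow, tPoly_natDegree] at h
  have hc : P.coeff 12 = c₆ ^ 2 - c₄ ^ 3 := by
    rw [hP, coeff_sub, coeff_C_mul, coeff_C_mul, hE3, hT2]; ring
  have hc0 : P.coeff 12 ≠ 0 := by
    rw [hc]; intro h; exact hd (by linear_combination -h)
  have hdeg : P.degree ≠ 0 := by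
    intro h0
    have hnat : P.natDegree = 0 := natDegree_eq_zero_iff_degree_le_zero.mpr h0.le
    exact hc0 (coeff_eq_zero_of_natDegree_lt (by rw [hnat]; norm_num))
  obtain ⟨a, ha⟩ := IsAlgClosed.exists_root P hdeg
  refine ⟨a, ?_⟩
  have := ha
  rw [IsRoot.def, hP, eval_sub, eval_mul, eval_mul, eval_C, eval_C, eval_pow, eval_pow,
    ePoly_eval, tPoly_eval] at this
  exact this

/-- (BASE) of the S52 design, Klein-free and over any algebraically closed field of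
characteristic zero: the cone `eta (x^5) (y^5) = c₄`, `theta (x^5) (y^5) = c₆` has a point. -/
theorem exists_base_explicit {K : Type*} [Field K] [IsAlgClosed K] [CharZero K] (c₄ c₆ : K)
    (h4 : c₄ ≠ 0) (h6 : c₆ ≠ 0) (hd : c₄ ^ 3 ≠ c₆ ^ 2) :
    ∃ x₀ y₀ : K,
      (x₀ ^ 5) ^ 4 - 228 * (x₀ ^ 5) ^ 3 * (y₀ ^ 5) + 494 * (x₀ ^ 5) ^ 2 * (y₀ ^ 5) ^ 2
          + 228 * (x₀ ^ 5) * (y₀ ^ 5) ^ 3 + (y₀ ^ 5) ^ 4 = c₄ ∧
      (x₀ ^ 5) ^ 6 + 522 * (x₀ ^ 5) ^ 5 * (y₀ ^ 5) - 10005 * (x₀ ^ 5) ^ 4 * (y₀ ^ 5) ^ 2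
          - 10005 * (x₀ ^ 5) ^ 2 * (y₀ ^ 5) ^ 4 - 522 * (x₀ ^ 5) * (y₀ ^ 5) ^ 5
          + (y₀ ^ 5) ^ 6 = c₆ := by
  obtain ⟨a, ha⟩ := exists_root_aux c₄ c₆ hd
  -- eta(a,1) ≠ 0 and theta(a,1) ≠ 0
  have he : e1 a ≠ 0 := by
    intro he
    have ht : t1 a = 0 := by
      rw [he] at ha
      have : c₄ ^ 3 * t1 a ^ 2 = 0 := by linear_combination -ha
      rcases mul_eq_zero.mp this with h | h
      · exact absurd (pow_eq_zero_iff (by norm_num) |>.mp h) h4
      · exact pow_eq_zero_iff (by norm_num) |>.mp h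
    exact not_e1_t1 a he ht
  have ht : t1 a ≠ 0 := by
    intro ht
    have he' : e1 a = 0 := by
      rw [ht] at ha
      have : c₆ ^ 2 * e1 a ^ 3 = 0 := by linear_combination ha
      rcases mul_eq_zero.mp this with h | h
      · exact absurd (pow_eq_zero_iff (by norm_num) |>.mp h) h6
      · exact pow_eq_zero_iff (by norm_num) |>.mp h
    exact he he'
  obtain ⟨μ, hμ⟩ := IsAlgClosed.exists_pow_nat_eq (c₆ * e1 a / (c₄ * t1 a)) (n := 2) (by norm_num)
  have hct : c₄ * t1 a ≠ 0 := mul_ne_zero h4 ht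
  have h1 : μ ^ 2 * (c₄ * t1 a) = c₆ * e1 a := by
    rw [hμ]; field_simp
  -- μ^4 * eta(a,1) = c₄
  have g1 : μ ^ 4 * e1 a = c₄ := by
    have hz : (μ ^ 4 * e1 a - c₄) * (c₄ * t1 a) ^ 2 = 0 := by
      linear_combination (μ ^ 2 * (c₄ * t1 a) + c₆ * e1 a) * e1 a * h1 + ha
    have := (mul_eq_zero.mp hz).resolve_right (pow_ne_zero 2 hct)
    linear_combination this
  -- μ^6 * theta(a,1) = c₆
  have g2 : μ ^ 6 * t1 a = c₆ := by
    have hz : (μ ^ 6 * t1 a - c₆) * (c₄ * e1 a) = 0 := by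
      linear_combination (μ ^ 4 * e1 a) * h1 + c₆ * e1 a * g1
    have := (mul_eq_zero.mp hz).resolve_right (mul_ne_zero h4 he)
    linear_combination this
  obtain ⟨x₀, hx₀⟩ := IsAlgClosed.exists_pow_nat_eq (μ * a) (n := 5) (by norm_num)
  obtain ⟨y₀, hy₀⟩ := IsAlgClosed.exists_pow_nat_eq μ (n := 5) (by norm_num)
  refine ⟨x₀, y₀, ?_, ?_⟩
  · rw [hx₀, hy₀, ← g1]; unfold e1; ring
  · rw [hx₀, hy₀, ← g2]; unfold t1; ring

end Fermat.Agent.S52P.Base49
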