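/-
S52P (the 3-5 switch) / (BASE) in the literal forms on `Klein.eta`, `Klein.theta`, `Klein.phi`
(helper49).  The Mathlib-only core is `S52P/Base49.lean`.
-/
import Fermat.Agent.S52P.Base49
import Fermat.Agent.S52P.Klein.Basic

set_option autoImplicit false

namespace Fermat.Agent.S52P.BaseKlein49

open Fermat.Agent.S52P.Klein

/-- (BASE) over any algebraically closed field of characteristic zero. -/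
theorem exists_base_field {K : Type*} [Field K] [IsAlgClosed K] [CharZero K] (c₄ c₆ : K)
    (h4 : c₄ ≠ 0) (h6 : c₆ ≠ 0) (hd : c₄ ^ 3 ≠ c₆ ^ 2) :
    ∃ x₀ y₀ : K, eta (x₀ ^ 5) (y₀ ^ 5) = c₄ ∧ theta (x₀ ^ 5) (y₀ ^ 5) = c₆ :=
  Fermat.Agent.S52P.Base49.exists_base_explicit c₄ c₆ h4 h6 hd

/-- At a base point, `f(u₀) = x₀ y₀ φ(x₀⁵, y₀⁵) ≠ 0` (syzygy), over any commutative ring. -/
theorem base_ne_zero {K : Type*} [CommRing K] (c₄ c₆ : K)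
    (hd : c₄ ^ 3 ≠ c₆ ^ 2) (x₀ y₀ : K)
    (h1 : eta (x₀ ^ 5) (y₀ ^ 5) = c₄) (h2 : theta (x₀ ^ 5) (y₀ ^ 5) = c₆) :
    x₀ * y₀ * phi (x₀ ^ 5) (y₀ ^ 5) ≠ 0 := by
  intro h0
  apply hd
  have hs := syzygy (x₀ ^ 5) (y₀ ^ 5)
  rw [h1, h2] at hs
  have h5 : x₀ ^ 5 * y₀ ^ 5 * phi (x₀ ^ 5) (y₀ ^ 5) ^ 5
      = (x₀ * y₀ * phi (x₀ ^ 5) (y₀ ^ 5)) ^ 5 := by ring
  rw [h5, h0] at hs
  linear_combination hs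

/-- the three factors separately (over a domain). -/
theorem base_ne_zero' {K : Type*} [CommRing K] [IsDomain K] (c₄ c₆ : K)
    (hd : c₄ ^ 3 ≠ c₆ ^ 2) (x₀ y₀ : K)
    (h1 : eta (x₀ ^ 5) (y₀ ^ 5) = c₄) (h2 : theta (x₀ ^ 5) (y₀ ^ 5) = c₆) :
    x₀ ≠ 0 ∧ y₀ ≠ 0 ∧ phi (x₀ ^ 5) (y₀ ^ 5) ≠ 0 := by
  have h := base_ne_zero c₄ c₆ hd x₀ y₀ h1 h2
  refine ⟨?_, ?_, ?_⟩
  · rintro rfl; exact h (by ring)
  · rintro rfl; exact h (by ring)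
  · intro h0; exact h (by rw [h0]; ring)

/-- (BASE) with the nonvanishing of `f(u₀)`, over any algebraically closed field of
characteristic zero. -/
theorem exists_base_field_ne {K : Type*} [Field K] [IsAlgClosed K] [CharZero K] (c₄ c₆ : K)
    (h4 : c₄ ≠ 0) (h6 : c₆ ≠ 0) (hd : c₄ ^ 3 ≠ c₆ ^ 2) :
    ∃ x₀ y₀ : K, eta (x₀ ^ 5) (y₀ ^ 5) = c₄ ∧ theta (x₀ ^ 5) (y₀ ^ 5) = c₆ ∧
      x₀ * y₀ * phi (x₀ ^ 5) (y₀ ^ 5) ≠ 0 := by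
  obtain ⟨x₀, y₀, h1, h2⟩ := exists_base_field c₄ c₆ h4 h6 hd
  exact ⟨x₀, y₀, h1, h2, base_ne_zero c₄ c₆ hd x₀ y₀ h1 h2⟩

/-- (BASE), the literal of the design: rational invariants, base point over `ℚ̄`. -/
theorem exists_base (c₄ c₆ : ℚ) (h4 : c₄ ≠ 0) (h6 : c₆ ≠ 0) (hd : c₄ ^ 3 ≠ c₆ ^ 2) :
    ∃ x₀ y₀ : AlgebraicClosure ℚ, eta (x₀ ^ 5) (y₀ ^ 5) = c₄ ∧ theta (x₀ ^ 5) (y₀ ^ 5) = c₆ := by
  refine exists_base_field (c₄ : AlgebraicClosure ℚ) (c₆ : AlgebraicClosure ℚ) ?_ ?_ ?_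
  · exact_mod_cast h4
  · exact_mod_cast h6
  · exact_mod_cast hd

/-- (BASE) with the nonvanishing of `f(u₀)`: rational invariants, base point over `ℚ̄`. -/
theorem exists_base_ne (c₄ c₆ : ℚ) (h4 : c₄ ≠ 0) (h6 : c₆ ≠ 0) (hd : c₄ ^ 3 ≠ c₆ ^ 2) :
    ∃ x₀ y₀ : AlgebraicClosure ℚ, eta (x₀ ^ 5) (y₀ ^ 5) = c₄ ∧ theta (x₀ ^ 5) (y₀ ^ 5) = c₆ ∧
      x₀ * y₀ * phi (x₀ ^ 5) (y₀ ^ 5) ≠ 0 := by
  refine exists_base_field_ne (c₄ : AlgebraicClosure ℚ) (c₆ : AlgebraicClosure ℚ) ?_ ?_ ?_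
  · exact_mod_cast h4
  · exact_mod_cast h6
  · exact_mod_cast hd

/-- (BASE) for integer invariants (e.g. `W.c₄`, `W.c₆`), base point over `ℚ̄`. -/
theorem exists_base_int (c₄ c₆ : ℤ) (h4 : c₄ ≠ 0) (h6 : c₆ ≠ 0) (hd : c₄ ^ 3 ≠ c₆ ^ 2) :
    ∃ x₀ y₀ : AlgebraicClosure ℚ, eta (x₀ ^ 5) (y₀ ^ 5) = c₄ ∧ theta (x₀ ^ 5) (y₀ ^ 5) = c₆ ∧
      x₀ * y₀ * phi (x₀ ^ 5) (y₀ ^ 5) ≠ 0 := by
  refine exists_base_field_ne (c₄ : AlgebraicClosure ℚ) (c₆ : AlgebraicClosure ℚ) ?_ ?_ ?_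
  · exact_mod_cast h4
  · exact_mod_cast h6
  · exact_mod_cast hd

end Fermat.Agent.S52P.BaseKlein49
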