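/-
S52 / project (P), brick (IRR3) (helper77).

If the quartic `z⁴ − 6 c₄ z² − 8 c₆ z − 3 c₄²` (the `3`-division polynomial in the variable
`z = 12 x + b₂`) of an integral Weierstrass curve `W'` with `Δ ≠ 0` has no integer root, then the
mod-`3` representation of `W'` is irreducible.

Proof.  If it is reducible, `S51/ThreeTorsion` (on main) gives a rational root `x₃` of
`3x⁴ + b₂x³ + 3b₄x² + 3b₆x + b₈`; then `z := 12 x₃ + b₂` is a rational root of the monic integral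
quartic above (a `ring` identity using `4 b₈ = b₂ b₆ − b₄²`), hence an integer by the rational root
theorem.
-/
import Mathlib
import Fermat.Agent.S51.ThreeTorsion

set_option autoImplicit false

open Polynomial

namespace Fermat.Agent.S52P.Irr3_77

/-- The `3`-division quartic in the variable `z = 12 x + b₂` (explicit form of `Klein.quart3`). -/
def q3 {R : Type*} [CommRing R] (c₄ c₆ z : R) : R :=
  z ^ 4 - 6 * c₄ * z ^ 2 - 8 * c₆ * z - 3 * c₄ ^ 2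

theorem q3_def {R : Type*} [CommRing R] (c₄ c₆ z : R) :
    q3 c₄ c₆ z = z ^ 4 - 6 * c₄ * z ^ 2 - 8 * c₆ * z - 3 * c₄ ^ 2 := rfl

/-- `q3 c₄ c₆ (12 x + b₂) = 6912 · Ψ₃(x)` for every Weierstrass curve. -/
theorem q3_eq_Ψ₃ {R : Type*} [CommRing R] (W : WeierstrassCurve R) (x : R) :
    q3 W.c₄ W.c₆ (12 * x + W.b₂) =
      6912 * (3 * x ^ 4 + W.b₂ * x ^ 3 + 3 * W.b₄ * x ^ 2 + 3 * W.b₆ * x + W.b₈) := by
  have hb := W.b_relation
  simp only [q3, WeierstrassCurve.c₄, WeierstrassCurve.c₆]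
  linear_combination (-1728 : R) * hb

/-- The monic integral quartic. -/
noncomputable def q3Poly (c₄ c₆ : ℤ) : ℤ[X] :=
  X ^ 4 - (6 * C c₄ * X ^ 2 + 8 * C c₆ * X + 3 * C c₄ ^ 2)

theorem q3Poly_monic (c₄ c₆ : ℤ) : (q3Poly c₄ c₆).Monic := by
  unfold q3Poly
  refine monic_X_pow_sub (lt_of_le_of_lt (degree_le_of_natDegree_le (n := 3) ?_) ?_)
  · compute_degree
    all_goals norm_num
  · exact_mod_cast (by norm_num : (3 : ℕ) < 4)

theorem aeval_q3Poly (c₄ c₆ : ℤ) (z : ℚ) :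
    aeval z (q3Poly c₄ c₆) = q3 (c₄ : ℚ) (c₆ : ℚ) z := by
  unfold q3Poly q3
  simp only [map_sub, map_add, map_mul, map_pow, aeval_X, aeval_C, map_ofNat]
  simp only [eq_intCast]
  ring

/-- A rational root of the quartic is an integer root. -/
theorem exists_int_root (c₄ c₆ : ℤ) (z : ℚ) (hz : q3 (c₄ : ℚ) (c₆ : ℚ) z = 0) :
    ∃ n : ℤ, q3 c₄ c₆ n = 0 := by
  have hroot : aeval z (q3Poly c₄ c₆) = 0 := by rw [aeval_q3Poly, hz]
  obtain ⟨n, hn⟩ := isInteger_of_is_root_of_monic (q3Poly_monic c₄ c₆) hroot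
  refine ⟨n, ?_⟩
  have hn' : ((n : ℤ) : ℚ) = z := by simpa using hn
  rw [← hn'] at hz
  have : ((q3 c₄ c₆ n : ℤ) : ℚ) = 0 := by
    rw [← hz]
    simp only [q3]
    push_cast
    ring
  exact_mod_cast this

/-- **(IRR3), explicit form.** -/
theorem irred3_of_no_root_explicit (W' : WeierstrassCurve ℤ) (hΔ' : W'.Δ ≠ 0)
    (h : ∀ z : ℤ, z ^ 4 - 6 * W'.c₄ * z ^ 2 - 8 * W'.c₆ * z - 3 * W'.c₄ ^ 2 ≠ 0) :
    W'.ModRepIsIrreducible 3 := by
  by_contra hcon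
  obtain ⟨x₃, hx⟩ := Fermat.Agent.S51.exists_rat_root_explicit W' hΔ' hcon
  have hq := q3_eq_Ψ₃ (W'.map (Int.castRingHom ℚ)) x₃
  have hz : q3 ((W'.c₄ : ℤ) : ℚ) ((W'.c₆ : ℤ) : ℚ) (12 * x₃ + (W'.b₂ : ℚ)) = 0 := by
    have h4 : (W'.map (Int.castRingHom ℚ)).c₄ = ((W'.c₄ : ℤ) : ℚ) := by
      rw [WeierstrassCurve.map_c₄]; rfl
    have h6 : (W'.map (Int.castRingHom ℚ)).c₆ = ((W'.c₆ : ℤ) : ℚ) := by
      rw [WeierstrassCurve.map_c₆]; rfl
    have h2 : (W'.map (Int.castRingHom ℚ)).b₂ = ((W'.b₂ : ℤ) : ℚ) := by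
      rw [WeierstrassCurve.map_b₂]; rfl
    have h4' : (W'.map (Int.castRingHom ℚ)).b₄ = ((W'.b₄ : ℤ) : ℚ) := by
      rw [WeierstrassCurve.map_b₄]; rfl
    have h6' : (W'.map (Int.castRingHom ℚ)).b₆ = ((W'.b₆ : ℤ) : ℚ) := by
      rw [WeierstrassCurve.map_b₆]; rfl
    have h8 : (W'.map (Int.castRingHom ℚ)).b₈ = ((W'.b₈ : ℤ) : ℚ) := by
      rw [WeierstrassCurve.map_b₈]; rfl
    rw [h4, h6, h2, h4', h6', h8, hx, mul_zero] at hq
    exact hq
  obtain ⟨n, hn⟩ := exists_int_root W'.c₄ W'.c₆ _ hz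
  exact h n hn

/-- **(IRR3)** in terms of `q3` (definitionally the literal with `Klein.quart3`). -/
theorem irred3_of_no_root (W' : WeierstrassCurve ℤ) (hΔ' : W'.Δ ≠ 0)
    (h : ∀ z : ℤ, q3 W'.c₄ W'.c₆ z ≠ 0) : W'.ModRepIsIrreducible 3 :=
  irred3_of_no_root_explicit W' hΔ' h

end Fermat.Agent.S52P.Irr3_77
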