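/-
S52 / project (P): the interface statement `IRR3` of `S52P/Seam.lean` (helper77), from
`Irr3_77.irred3_of_no_root_explicit`.
-/
import Mathlib
import Fermat.Agent.S52P.Seam
import Fermat.Agent.S52P.Irr3_77

set_option autoImplicit false

namespace Fermat.Agent.S52P.Irr3Seam77

open Fermat.Agent.S52P.Klein

/-- **(IRR3)**: the interface statement of the top seam. -/
theorem irr3 : Fermat.Agent.S52P.IRR3 := fun W' hΔ' h =>
  Fermat.Agent.S52P.Irr3_77.irred3_of_no_root_explicit W' hΔ' (fun z => h z)

end Fermat.Agent.S52P.Irr3Seam77
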