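import Mathlib
import Fermat.Prelude.Def_FLTPrelim_Modularity

set_option autoImplicit false

namespace Fermat.Agent.S52P.L0_49

open WeierstrassCurve

/-- A nonzero integer with no prime divisor is `±1`. -/
theorem natAbs_eq_one_of_no_prime {d : ℤ}
    (h : ∀ p : ℕ, p.Prime → ¬ (p : ℤ) ∣ d) : d.natAbs = 1 := by
  by_contra hne
  obtain ⟨p, hp, hpd⟩ := Nat.exists_prime_and_dvd hne
  exact h p hp (Int.natCast_dvd.mpr hpd)

/-- `1728` is not a square, nor is `-1728`. -/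
theorem sq_ne_1728 (x : ℤ) : x ^ 2 ≠ 1728 := by
  intro h
  have h1 : x.natAbs ^ 2 = 1728 := by
    have : ((x.natAbs : ℤ)) ^ 2 = 1728 := by rw [Int.natCast_natAbs, sq_abs]; exact h
    exact_mod_cast this
  have h2 : x.natAbs < 42 := by
    by_contra hge
    have : 42 ^ 2 ≤ x.natAbs ^ 2 := Nat.pow_le_pow_left (not_lt.mp hge) 2
    omega
  have h3 : 41 < x.natAbs := by
    by_contra hle
    have : x.natAbs ^ 2 ≤ 41 ^ 2 := Nat.pow_le_pow_left (not_lt.mp hle) 2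
    omega
  omega

theorem sq_ne_neg_1728 (x : ℤ) : x ^ 2 ≠ -1728 := by
  intro h
  have := sq_nonneg x
  omega

/-- (L0) of the S52 design: a semistable integral model with nonzero discriminant has
`c₄ ≠ 0` and `c₆ ≠ 0`. -/
theorem c4_c6_ne_zero (W : WeierstrassCurve ℤ) (_hΔ : W.Δ ≠ 0) (hW : W.IsSemistableModel) :
    W.c₄ ≠ 0 ∧ W.c₆ ≠ 0 := by
  have hrel : 1728 * W.Δ = W.c₄ ^ 3 - W.c₆ ^ 2 := W.c_relation
  constructor
  · intro h4
    -- no prime divides Δ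
    have hno : ∀ p : ℕ, p.Prime → ¬ (p : ℤ) ∣ W.Δ := by
      intro p hp hpd
      exact hW p hp hpd (by rw [h4]; exact dvd_zero _)
    have habs := natAbs_eq_one_of_no_prime hno
    rcases Int.natAbs_eq W.Δ with h | h
    · rw [habs] at h
      have : W.c₆ ^ 2 = -1728 := by rw [h4, h] at hrel; push_cast at hrel; linarith
      exact sq_ne_neg_1728 _ this
    · rw [habs] at h
      have : W.c₆ ^ 2 = 1728 := by rw [h4, h] at hrel; push_cast at hrel; linarith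
      exact sq_ne_1728 _ this
  · intro h6
    have hrel' : 1728 * W.Δ = W.c₄ ^ 3 := by rw [h6] at hrel; linarith
    have hno : ∀ p : ℕ, p.Prime → ¬ (p : ℤ) ∣ W.Δ := by
      intro p hp hpd
      have hp' : Prime (p : ℤ) := Nat.prime_iff_prime_int.mp hp
      have : (p : ℤ) ∣ W.c₄ ^ 3 := by rw [← hrel']; exact Dvd.dvd.mul_left hpd _
      exact hW p hp hpd (hp'.dvd_of_dvd_pow this)
    have habs := natAbs_eq_one_of_no_prime hno
    -- c₄ ^ 3 = ± 1728, so c₄ = ± 12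
    have hc4 : W.c₄ = 12 ∨ W.c₄ = -12 := by
      rcases Int.natAbs_eq W.Δ with h | h
      · rw [habs] at h
        left
        have h3 : W.c₄ ^ 3 = 12 ^ 3 := by rw [← hrel', h]; norm_num
        exact (Odd.strictMono_pow (by decide : Odd 3)).injective h3
      · rw [habs] at h
        right
        have h3 : W.c₄ ^ 3 = (-12) ^ 3 := by rw [← hrel', h]; norm_num
        exact (Odd.strictMono_pow (by decide : Odd 3)).injective h3
    -- b₂ ^ 2 = c₄ + 24 b₄, and b₂ = a₁ ^ 2 + 4 a₂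
    have hb2 : W.b₂ = W.a₁ ^ 2 + 4 * W.a₂ := rfl
    have hc4' : W.c₄ = W.b₂ ^ 2 - 24 * W.b₄ := rfl
    -- reduce mod 8: b₂^2 ≡ 4 mod 8, forcing b₂ ≡ 2 mod 4; but b₂ ≡ a₁^2 mod 4.
    have h8 : W.b₂ ^ 2 % 8 = 4 := by
      rcases hc4 with h | h <;> · have : W.b₂ ^ 2 = W.c₄ + 24 * W.b₄ := by rw [hc4']; ring
                                  rw [this, h]; omega
    have hb2mod : W.b₂ % 4 = 2 := by
      have h4 : W.b₂ % 8 = 0 ∨ W.b₂ % 8 = 1 ∨ W.b₂ % 8 = 2 ∨ W.b₂ % 8 = 3 ∨ W.b₂ % 8 = 4 ∨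
          W.b₂ % 8 = 5 ∨ W.b₂ % 8 = 6 ∨ W.b₂ % 8 = 7 := by omega
      have hsq : W.b₂ ^ 2 % 8 = (W.b₂ % 8) ^ 2 % 8 := by
        rw [pow_two, pow_two, Int.mul_emod]
      rcases h4 with h | h | h | h | h | h | h | h <;> rw [h] at hsq <;> omega
    have ha1 : W.b₂ % 4 = W.a₁ ^ 2 % 4 := by rw [hb2]; omega
    have ha1' : W.a₁ ^ 2 % 4 = 0 ∨ W.a₁ ^ 2 % 4 = 1 := by
      have h4 : W.a₁ % 4 = 0 ∨ W.a₁ % 4 = 1 ∨ W.a₁ % 4 = 2 ∨ W.a₁ % 4 = 3 := by omega
      have hsq : W.a₁ ^ 2 % 4 = (W.a₁ % 4) ^ 2 % 4 := by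
        rw [pow_two, pow_two, Int.mul_emod]
      rcases h4 with h | h | h | h <;> rw [h] at hsq <;> omega
    omega

end Fermat.Agent.S52P.L0_49
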