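/-
S52P (the 3-5 switch) / (L0) against the Prop of `S52P/Seam.lean` (helper49).
-/
import Fermat.Agent.S52P.Seam
import Fermat.Agent.S52P.L0_49

set_option autoImplicit false

namespace Fermat.Agent.S52P.L0Seam49

/-- (L0): a semistable integral model with `Δ ≠ 0` has `c₄ ≠ 0` and `c₆ ≠ 0`. -/
theorem l0 : Fermat.Agent.S52P.L0 :=
  fun W hΔ hW => Fermat.Agent.S52P.L0_49.c4_c6_ne_zero W hΔ hW

end Fermat.Agent.S52P.L0Seam49
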