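/-
S52 / project (P), brick (MOD) (helper17): an integral Weierstrass model with prescribed
`c₄`, `c₆` in the classes `l⁴ c₄ + 1728 ℤ`, `l⁶ c₆ + 1728 ℤ`.

Starting from `W`, scale by `l` and correct `a₄`, `a₆`:
`W' = [l a₁, l² a₂, l³ a₃, l⁴ a₄ - 36 k₄, l⁶ a₆ - (2 k₆ + 3 l² b₂ k₄)]`.
-/
import Mathlib

set_option autoImplicit false

namespace Fermat.Agent.S52P.Mod17

/-- The corrected model. -/
def model (W : WeierstrassCurve ℤ) (l k₄ k₆ : ℤ) : WeierstrassCurve ℤ where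
  a₁ := l * W.a₁
  a₂ := l ^ 2 * W.a₂
  a₃ := l ^ 3 * W.a₃
  a₄ := l ^ 4 * W.a₄ - 36 * k₄
  a₆ := l ^ 6 * W.a₆ - (2 * k₆ + 3 * (l ^ 2 * W.b₂) * k₄)

theorem model_c₄ (W : WeierstrassCurve ℤ) (l k₄ k₆ : ℤ) :
    (model W l k₄ k₆).c₄ = l ^ 4 * W.c₄ + 1728 * k₄ := by
  simp only [model, WeierstrassCurve.c₄, WeierstrassCurve.b₂, WeierstrassCurve.b₄]
  ring

theorem model_c₆ (W : WeierstrassCurve ℤ) (l k₄ k₆ : ℤ) :
    (model W l k₄ k₆).c₆ = l ^ 6 * W.c₆ + 1728 * k₆ := by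
  simp only [model, WeierstrassCurve.c₆, WeierstrassCurve.b₂, WeierstrassCurve.b₄,
    WeierstrassCurve.b₆]
  ring

/-- **(MOD), Klein-free core**: every pair `(l⁴ c₄ + 1728 k₄, l⁶ c₆ + 1728 k₆)` is the pair
`(c₄, c₆)` of an integral Weierstrass model. -/
theorem exists_model_of_congr (W : WeierstrassCurve ℤ) (l k₄ k₆ : ℤ) :
    ∃ W' : WeierstrassCurve ℤ,
      W'.c₄ = l ^ 4 * W.c₄ + 1728 * k₄ ∧ W'.c₆ = l ^ 6 * W.c₆ + 1728 * k₆ :=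
  ⟨model W l k₄ k₆, model_c₄ W l k₄ k₆, model_c₆ W l k₄ k₆⟩

/-- The same with the target values given: if `c₄' ≡ l⁴ c₄` and `c₆' ≡ l⁶ c₆` modulo `1728`,
then `(c₄', c₆')` is the pair of invariants of an integral model. -/
theorem exists_model_of_dvd (W : WeierstrassCurve ℤ) (l c₄' c₆' : ℤ)
    (h4 : (1728 : ℤ) ∣ c₄' - l ^ 4 * W.c₄) (h6 : (1728 : ℤ) ∣ c₆' - l ^ 6 * W.c₆) :
    ∃ W' : WeierstrassCurve ℤ, W'.c₄ = c₄' ∧ W'.c₆ = c₆' := by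
  obtain ⟨k₄, hk₄⟩ := h4
  obtain ⟨k₆, hk₆⟩ := h6
  refine ⟨model W l k₄ k₆, ?_, ?_⟩
  · rw [model_c₄]; linarith
  · rw [model_c₆]; linarith

end Fermat.Agent.S52P.Mod17
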