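/-
S52 / project (P), brick (MOD) (helper17): the interface statement `MOD` of `S52P/Seam.lean`.

`famH e h m n ≡ e m²⁰` and `famT e h m n ≡ h m³⁰` modulo `n` (`Klein/FamCong.lean`), so for
`1728 ∣ n` the pair `(famH c₄ c₆ m n, famT c₄ c₆ m n)` is congruent to `((m⁵)⁴ c₄, (m⁵)⁶ c₆)`
modulo `1728`, and `Mod17.exists_model_of_dvd` applies with `l = m⁵`.
-/
import Mathlib
import Fermat.Agent.S52P.Klein.Defs
import Fermat.Agent.S52P.Klein.FamCong
import Fermat.Agent.S52P.Seam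
import Fermat.Agent.S52P.Mod17

set_option autoImplicit false

namespace Fermat.Agent.S52P.Mod17Seam

open Fermat.Agent.S52P.Klein

/-- **(MOD)**, the interface literal: for `1728 ∣ n` the member `(m, n)` of the family through `W`
has an integral Weierstrass model. -/
theorem exists_model (W : WeierstrassCurve ℤ) (m n : ℤ) (hn : (1728 : ℤ) ∣ n) :
    ∃ W' : WeierstrassCurve ℤ, W'.c₄ = famH W.c₄ W.c₆ m n ∧ W'.c₆ = famT W.c₄ W.c₆ m n := by
  refine Mod17.exists_model_of_dvd W (m ^ 5) _ _ ?_ ?_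
  · have h := hn.trans (dvd_famH_sub W.c₄ W.c₆ m n)
    have e : famH W.c₄ W.c₆ m n - (m ^ 5) ^ 4 * W.c₄ = famH W.c₄ W.c₆ m n - W.c₄ * m ^ 20 := by
      ring
    rw [e]; exact h
  · have h := hn.trans (dvd_famT_sub W.c₄ W.c₆ m n)
    have e : famT W.c₄ W.c₆ m n - (m ^ 5) ^ 6 * W.c₆ = famT W.c₄ W.c₆ m n - W.c₆ * m ^ 30 := by
      ring
    rw [e]; exact h

/-- The brick `MOD` of the top seam. -/
theorem mod : MOD := fun W m n hn => exists_model W m n hn

end Fermat.Agent.S52P.Mod17Seam
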