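import Mathlib

/-!
# The semistability core of the 3–5 switch family (Klein-form free)

Explicit Klein forms in `X = x⁵`, `Y = y⁵`:
`etaE`, `thetaE` (the invariants `c₄`, `c₆`), `phiE`, and the two quadratic forms `kAE`, `kBE`
of the pencil.  The main result `no_common_prime` says: on a valuation subring of a field lying
over a prime `p ∤ 30·Δ`, the twisted pair `(c₄', c₆')` at coprime parameters `(m, n)` is not
simultaneously divisible by `p`.
-/

set_option autoImplicit false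

namespace Fermat.Agent.S52P.SSCore33

section Forms

variable {R : Type*} [CommRing R]

/-- The Klein form of degree 20, in `X = x⁵`, `Y = y⁵`. -/
def etaE (X Y : R) : R := X ^ 4 - 228 * X ^ 3 * Y + 494 * X ^ 2 * Y ^ 2 + 228 * X * Y ^ 3 + Y ^ 4

/-- The Klein form of degree 30, in `X = x⁵`, `Y = y⁵`. -/
def thetaE (X Y : R) : R :=
  X ^ 6 + 522 * X ^ 5 * Y - 10005 * X ^ 4 * Y ^ 2 - 10005 * X ^ 2 * Y ^ 4 - 522 * X * Y ^ 5 + Y ^ 6

/-- The Klein form of degree 12 divided by `x y`, in `X = x⁵`, `Y = y⁵`. -/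
def phiE (X Y : R) : R := X ^ 2 + 11 * X * Y - Y ^ 2

/-- First quadratic form of the pencil. -/
def kAE (X Y : R) : R := X ^ 2 + 66 * X * Y - 11 * Y ^ 2

/-- Second quadratic form of the pencil. -/
def kBE (X Y : R) : R := 11 * X ^ 2 + 66 * X * Y - Y ^ 2

/-- Bezout cofactor of `etaE` for `X ^ 9`. -/
def bPX (X Y : R) : R :=
  950431323 * X ^ 5 - 20237705983 * X ^ 4 * Y - 103588896 * X ^ 3 * Y ^ 2
    - 20237108822 * X ^ 2 * Y ^ 3 - 1055557719 * X * Y ^ 4 + 2022161 * Y ^ 5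

/-- Bezout cofactor of `thetaE` for `X ^ 9`. -/
def bQX (X Y : R) : R :=
  455818677 * X ^ 3 - 1001301767 * X ^ 2 * Y - 461063031 * X * Y ^ 2 - 2022161 * Y ^ 3

/-- Bezout cofactor of `etaE` for `Y ^ 9`. -/
def bPY (X Y : R) : R :=
  -2022161 * X ^ 5 - 1055557719 * X ^ 4 * Y + 20237108822 * X ^ 3 * Y ^ 2
    - 103588896 * X ^ 2 * Y ^ 3 + 20237705983 * X * Y ^ 4 + 950431323 * Y ^ 5

/-- Bezout cofactor of `thetaE` for `Y ^ 9`. -/
def bQY (X Y : R) : R :=
  2022161 * X ^ 3 - 461063031 * X ^ 2 * Y + 1001301767 * X * Y ^ 2 + 455818677 * Y ^ 3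

theorem bezX (X Y : R) :
    bPX X Y * etaE X Y + bQX X Y * thetaE X Y = 1406250000 * X ^ 9 := by
  simp only [bPX, bQX, etaE, thetaE]; ring

theorem bezY (X Y : R) :
    bPY X Y * etaE X Y + bQY X Y * thetaE X Y = 1406250000 * Y ^ 9 := by
  simp only [bPY, bQY, etaE, thetaE]; ring

theorem syzE (X Y : R) :
    etaE X Y ^ 3 - thetaE X Y ^ 2 = -1728 * (X * Y * phiE X Y ^ 5) := by
  simp only [etaE, thetaE, phiE]; ring

theorem kAE_add_kBE (X Y : R) : kAE X Y + kBE X Y = 12 * phiE X Y := by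
  simp only [kAE, kBE, phiE]; ring

theorem etaE_swap (X Y : R) : etaE Y (-X) = etaE X Y := by
  simp only [etaE]; ring

theorem thetaE_swap (X Y : R) : thetaE Y (-X) = thetaE X Y := by
  simp only [thetaE]; ring

variable {S : Type*} [CommRing S] (f : R →+* S)

theorem map_etaE (X Y : R) : f (etaE X Y) = etaE (f X) (f Y) := by
  simp only [etaE, map_add, map_sub, map_mul, map_pow, map_ofNat]

theorem map_thetaE (X Y : R) : f (thetaE X Y) = thetaE (f X) (f Y) := by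
  simp only [thetaE, map_add, map_sub, map_mul, map_pow, map_ofNat]

theorem map_phiE (X Y : R) : f (phiE X Y) = phiE (f X) (f Y) := by
  simp only [phiE, map_add, map_sub, map_mul, map_pow, map_ofNat]

theorem map_kAE (X Y : R) : f (kAE X Y) = kAE (f X) (f Y) := by
  simp only [kAE, map_add, map_sub, map_mul, map_pow, map_ofNat]

theorem map_kBE (X Y : R) : f (kBE X Y) = kBE (f X) (f Y) := by
  simp only [kBE, map_add, map_sub, map_mul, map_pow, map_ofNat]

theorem map_bPY (X Y : R) : f (bPY X Y) = bPY (f X) (f Y) := by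
  simp only [bPY, map_add, map_sub, map_mul, map_pow, map_neg, map_ofNat]

theorem map_bQY (X Y : R) : f (bQY X Y) = bQY (f X) (f Y) := by
  simp only [bQY, map_add, map_sub, map_mul, map_pow, map_ofNat]

end Forms

section Valuation

variable {L : Type*} [Field L] (A : ValuationSubring L)

/-- (V1), one half: if `v X ≤ v Y` and both Klein invariants are integral, then `Y` is
integral. -/
theorem Y_mem_of_le (hN : A.valuation (1406250000 : L) = 1) (X Y : L)
    (hle : A.valuation X ≤ A.valuation Y) (hη : etaE X Y ∈ A) (hθ : thetaE X Y ∈ A) : Y ∈ A := by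
  by_contra hY
  have hY1 : 1 < A.valuation Y := by
    rw [← A.valuation_le_one_iff] at hY
    exact lt_of_not_ge hY
  have hY0 : Y ≠ 0 := by
    rintro rfl
    simp at hY1
  have hvY0 : A.valuation Y ≠ 0 := by simpa using hY0
  have ht : X / Y ∈ A := by
    rw [← A.valuation_le_one_iff, map_div₀]
    exact div_le_one_of_le₀ hle zero_le
  have hs' : A.valuation Y⁻¹ < 1 := by
    rw [map_inv₀]
    exact inv_lt_one_of_one_lt₀ hY1
  have hs : Y⁻¹ ∈ A := by
    rw [← A.valuation_le_one_iff]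
    exact hs'.le
  -- work in the ring `A`
  set t : A := ⟨X / Y, ht⟩ with ht_def
  set s : A := ⟨Y⁻¹, hs⟩ with hs_def
  set η : A := ⟨etaE X Y, hη⟩ with hη_def
  set θ : A := ⟨thetaE X Y, hθ⟩ with hθ_def
  have key : (1406250000 : L) =
      ((s ^ 4 * (bPY t 1 * η + s ^ 2 * bQY t 1 * θ) : A) : L) := by
    have hb := bezY X Y
    have e1 : ((bPY t 1 : A) : L) = bPY (X / Y) 1 := by
      rw [← A.subtype_apply, map_bPY]; simp [t]
    have e2 : ((bQY t 1 : A) : L) = bQY (X / Y) 1 := by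
      rw [← A.subtype_apply, map_bQY]; simp [t]
    push_cast
    rw [e1, e2]
    have e3 : bPY (X / Y) 1 = bPY X Y / Y ^ 5 := by
      simp only [bPY]; field_simp
    have e4 : bQY (X / Y) 1 = bQY X Y / Y ^ 3 := by
      simp only [bQY]; field_simp
    rw [e3, e4]
    simp only [s, η, θ]
    field_simp
    linear_combination (-1 : L) * hb
  have hmem : (s ^ 4 * (bPY t 1 * η + s ^ 2 * bQY t 1 * θ) : A) ∈ IsLocalRing.maximalIdeal A := by
    refine Ideal.mul_mem_right _ _ (Ideal.pow_mem_of_mem _ ?_ 4 (by norm_num))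
    rw [A.valuation_lt_one_iff]
    exact hs'
  rw [A.valuation_lt_one_iff, ← key, hN] at hmem
  exact lt_irrefl _ hmem

/-- (V1): if both Klein invariants of `(X, Y)` are integral (and `30` is a unit), then `X` and
`Y` are integral. -/
theorem mem_of_eta_theta_mem (hN : A.valuation (1406250000 : L) = 1) (X Y : L)
    (hη : etaE X Y ∈ A) (hθ : thetaE X Y ∈ A) : X ∈ A ∧ Y ∈ A := by
  rcases le_total (A.valuation X) (A.valuation Y) with hle | hle
  · have hY := Y_mem_of_le A hN X Y hle hη hθ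
    refine ⟨?_, hY⟩
    rw [← A.valuation_le_one_iff] at hY ⊢
    exact hle.trans hY
  · have hX : -X ∈ A := by
      refine Y_mem_of_le A hN Y (-X) ?_ ?_ ?_
      · rw [Valuation.map_neg]; exact hle
      · rw [etaE_swap]; exact hη
      · rw [thetaE_swap]; exact hθ
    have hX' : X ∈ A := by simpa using A.neg_mem _ hX
    refine ⟨hX', ?_⟩
    rw [← A.valuation_le_one_iff] at hX' ⊢
    exact hle.trans hX'

end Valuation

section PrimeIdeal

variable {R : Type*} [CommRing R] (I : Ideal R) [I.IsPrime]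

/-- (V2) + (V3), in a commutative ring with a prime ideal `I` not containing `30` and `Δ`:
the twisted Klein invariants at coprime parameters `(m, n)` do not both lie in `I`. -/
theorem not_both_mem (h30 : (30 : R) ∉ I) (c₄ c₆ Δ m n : ℤ) (hrel : 1728 * Δ = c₄ ^ 3 - c₆ ^ 2)
    (hΔ : (Δ : R) ∉ I) (hmn : IsCoprime m n) (x y : R)
    (hη : etaE (x ^ 5) (y ^ 5) = c₄) (hθ : thetaE (x ^ 5) (y ^ 5) = c₆)
    (hH : etaE (x ^ 5 * (m + n * kAE (x ^ 5) (y ^ 5)) ^ 5)
      (y ^ 5 * (m - n * kBE (x ^ 5) (y ^ 5)) ^ 5) ∈ I)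
    (hT : thetaE (x ^ 5 * (m + n * kAE (x ^ 5) (y ^ 5)) ^ 5)
      (y ^ 5 * (m - n * kBE (x ^ 5) (y ^ 5)) ^ 5) ∈ I) : False := by
  have hN : (1406250000 : R) ∉ I := by
    intro h
    apply h30
    have h' : (30 : R) ^ 10 ∈ I := by
      have : (30 : R) ^ 10 = 1406250000 * 419904 := by norm_num
      rw [this]
      exact Ideal.mul_mem_right _ _ h
    exact Ideal.IsPrime.mem_of_pow_mem inferInstance _ h'
  set kA : R := kAE (x ^ 5) (y ^ 5) with hkA
  set kB : R := kBE (x ^ 5) (y ^ 5) with hkB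
  set ξ : R := x * (m + n * kA) with hξ
  set υ : R := y * (m - n * kB) with hυ
  have hΞ : x ^ 5 * (m + n * kA) ^ 5 = ξ ^ 5 := by rw [hξ]; ring
  have hΥ : y ^ 5 * (m - n * kB) ^ 5 = υ ^ 5 := by rw [hυ]; ring
  rw [hΞ, hΥ] at hH hT
  -- (V2): `ξ, υ ∈ I`
  have hξI : ξ ∈ I := by
    have h1 : (1406250000 : R) * (ξ ^ 5) ^ 9 ∈ I := by
      rw [← bezX (ξ ^ 5) (υ ^ 5)]
      exact Ideal.add_mem _ (Ideal.mul_mem_left _ _ hH) (Ideal.mul_mem_left _ _ hT)
    rcases Ideal.IsPrime.mem_or_mem inferInstance h1 with h | h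
    · exact absurd h hN
    · exact Ideal.IsPrime.mem_of_pow_mem inferInstance _
        (Ideal.IsPrime.mem_of_pow_mem inferInstance _ h)
  have hυI : υ ∈ I := by
    have h1 : (1406250000 : R) * (υ ^ 5) ^ 9 ∈ I := by
      rw [← bezY (ξ ^ 5) (υ ^ 5)]
      exact Ideal.add_mem _ (Ideal.mul_mem_left _ _ hH) (Ideal.mul_mem_left _ _ hT)
    rcases Ideal.IsPrime.mem_or_mem inferInstance h1 with h | h
    · exact absurd h hN
    · exact Ideal.IsPrime.mem_of_pow_mem inferInstance _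
        (Ideal.IsPrime.mem_of_pow_mem inferInstance _ h)
  -- (V3)
  set f : R := x * y * phiE (x ^ 5) (y ^ 5) with hf
  have hk := kAE_add_kBE (x ^ 5) (y ^ 5)
  rw [← hkA, ← hkB] at hk
  have hn : (12 : R) * n * f ∈ I := by
    have : (12 : R) * n * f = y * ξ - x * υ := by
      rw [hξ, hυ, hf]; linear_combination (-(n : R) * x * y) * hk
    rw [this]
    exact Ideal.sub_mem _ (Ideal.mul_mem_left _ _ hξI) (Ideal.mul_mem_left _ _ hυI)
  have hm : (12 : R) * m * f ∈ I := by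
    have : (12 : R) * m * f = (x * kA) * υ + (y * kB) * ξ := by
      rw [hξ, hυ, hf]; linear_combination (-(m : R) * x * y) * hk
    rw [this]
    exact Ideal.add_mem _ (Ideal.mul_mem_left _ _ hυI) (Ideal.mul_mem_left _ _ hξI)
  obtain ⟨a, b, hab⟩ := hmn
  have h12 : (12 : R) * f ∈ I := by
    have : (12 : R) * f = a * ((12 : R) * m * f) + b * ((12 : R) * n * f) := by
      have hab' : (a : R) * m + b * n = 1 := by exact_mod_cast congrArg (Int.cast : ℤ → R) hab
      linear_combination (-(12 : R) * f) * hab'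
    rw [this]
    exact Ideal.add_mem _ (Ideal.mul_mem_left _ _ hm) (Ideal.mul_mem_left _ _ hn)
  have hrel' : (1728 : R) * Δ = (c₄ : R) ^ 3 - (c₆ : R) ^ 2 := by
    exact_mod_cast congrArg (Int.cast : ℤ → R) hrel
  have hsyz := syzE (x ^ 5) (y ^ 5)
  rw [hη, hθ] at hsyz
  have hfin : (30 : R) ^ 16 * Δ ∈ I := by
    have : (30 : R) ^ 16 * Δ = -((1728 : R) * 1001129150390625) * ((12 : R) * f) ^ 5 := by
      rw [hf]
      linear_combination ((248832 : R) * 1001129150390625) * hrel' +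
        ((248832 : R) * 1001129150390625) * hsyz
    rw [this]
    exact Ideal.mul_mem_left _ _ (Ideal.pow_mem_of_mem _ h12 5 (by norm_num))
  rcases Ideal.IsPrime.mem_or_mem inferInstance hfin with h | h
  · exact h30 (Ideal.IsPrime.mem_of_pow_mem inferInstance _ h)
  · exact hΔ h

end PrimeIdeal

section Combine

variable {L : Type*} [Field L] (A : ValuationSubring L)

theorem natCast_mem_maximalIdeal {p : ℕ} (hpA : (p : L) ∈ A.nonunits) :
    (p : A) ∈ IsLocalRing.maximalIdeal A := by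
  rw [A.valuation_lt_one_iff]
  rw [ValuationSubring.mem_nonunits_iff] at hpA
  simpa using hpA

/-- Integers prime to `p` are units of a valuation subring over `p`. -/
theorem intCast_not_mem_maximalIdeal {p : ℕ} (hp : p.Prime) (hpA : (p : L) ∈ A.nonunits) {k : ℤ}
    (hk : ¬ (p : ℤ) ∣ k) : (k : A) ∉ IsLocalRing.maximalIdeal A := by
  intro hkA
  have hcop : IsCoprime (p : ℤ) k :=
    (Irreducible.coprime_iff_not_dvd (Nat.prime_iff_prime_int.mp hp).irreducible).mpr hk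
  obtain ⟨a, b, hab⟩ := hcop
  have h1 : (1 : A) ∈ IsLocalRing.maximalIdeal A := by
    have : (1 : A) = a * (p : A) + b * (k : A) := by
      have := congrArg (Int.cast : ℤ → A) hab
      push_cast at this
      exact this.symm
    rw [this]
    exact Ideal.add_mem _ (Ideal.mul_mem_left _ _ (natCast_mem_maximalIdeal A hpA))
      (Ideal.mul_mem_left _ _ hkA)
  exact (Ideal.ne_top_iff_one _).mp (IsLocalRing.maximalIdeal.isMaximal A).ne_top h1

/-- Integers divisible by `p` are non-units of a valuation subring over `p`. -/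
theorem intCast_mem_maximalIdeal {p : ℕ} (hpA : (p : L) ∈ A.nonunits) {k : ℤ}
    (hk : (p : ℤ) ∣ k) : (k : A) ∈ IsLocalRing.maximalIdeal A := by
  obtain ⟨q, rfl⟩ := hk
  push_cast
  exact Ideal.mul_mem_right _ _ (natCast_mem_maximalIdeal A hpA)

theorem mem_of_pow_five_mem {x : L} (hx : x ^ 5 ∈ A) : x ∈ A := by
  rw [← A.valuation_le_one_iff] at hx ⊢
  rw [map_pow] at hx
  by_contra h
  exact absurd hx (not_le.mpr (one_lt_pow₀ (lt_of_not_ge h) (by norm_num)))

/-- **The valuation core** of the semistability of the family: over a valuation subring of a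
field lying over a prime `p ∤ 30 Δ`, with `(x, y)` a point of the Klein model of `(c₄, c₆)`,
the twisted invariants `(c₄', c₆')` at coprime parameters `(m, n)` are not both divisible by
`p`. -/
theorem no_common_prime {p : ℕ} (hp : p.Prime) (hpA : (p : L) ∈ A.nonunits)
    (c₄ c₆ Δ m n c₄' c₆' : ℤ) (hrel : 1728 * Δ = c₄ ^ 3 - c₆ ^ 2)
    (h30 : ¬ (p : ℤ) ∣ 30) (hΔ : ¬ (p : ℤ) ∣ Δ) (hmn : IsCoprime m n) (x y : L)
    (hη : etaE (x ^ 5) (y ^ 5) = c₄) (hθ : thetaE (x ^ 5) (y ^ 5) = c₆)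
    (hH : etaE (x ^ 5 * (m + n * kAE (x ^ 5) (y ^ 5)) ^ 5)
      (y ^ 5 * (m - n * kBE (x ^ 5) (y ^ 5)) ^ 5) = c₄')
    (hT : thetaE (x ^ 5 * (m + n * kAE (x ^ 5) (y ^ 5)) ^ 5)
      (y ^ 5 * (m - n * kBE (x ^ 5) (y ^ 5)) ^ 5) = c₆')
    (h4 : (p : ℤ) ∣ c₄') (h6 : (p : ℤ) ∣ c₆') : False := by
  have hpp : Prime (p : ℤ) := Nat.prime_iff_prime_int.mp hp
  have hint : ∀ k : ℤ, (k : L) ∈ A := fun k => by simp
  -- `1406250000` is a unit
  have hN : A.valuation (1406250000 : L) = 1 := by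
    have h1 : ¬ (p : ℤ) ∣ 1406250000 := by
      intro h
      exact h30 (hpp.dvd_of_dvd_pow (dvd_trans h (by norm_num : (1406250000 : ℤ) ∣ 30 ^ 10)))
    have h2 := intCast_not_mem_maximalIdeal A hp hpA h1
    rw [A.valuation_lt_one_iff] at h2
    have hc : (((1406250000 : ℤ) : A) : L) = 1406250000 := by
      rw [← A.subtype_apply, map_intCast]
      norm_num
    rw [hc] at h2
    have h3 : A.valuation (1406250000 : L) ≤ 1 := by
      rw [A.valuation_le_one_iff, ← hc]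
      exact SetLike.coe_mem _
    exact le_antisymm h3 (not_lt.mp h2)
  -- (V1)
  have hxy := mem_of_eta_theta_mem A hN (x ^ 5) (y ^ 5) (by rw [hη]; exact hint _)
    (by rw [hθ]; exact hint _)
  have hx : x ∈ A := mem_of_pow_five_mem A hxy.1
  have hy : y ∈ A := mem_of_pow_five_mem A hxy.2
  -- (V2), (V3) in the ring `A`
  refine not_both_mem (IsLocalRing.maximalIdeal A) ?_ c₄ c₆ Δ m n hrel
    (intCast_not_mem_maximalIdeal A hp hpA hΔ) hmn ⟨x, hx⟩ ⟨y, hy⟩ ?_ ?_ ?_ ?_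
  · have := intCast_not_mem_maximalIdeal A hp hpA h30
    simpa using this
  · apply Subtype.ext
    rw [← A.subtype_apply, map_etaE]
    simpa using hη
  · apply Subtype.ext
    rw [← A.subtype_apply, map_thetaE]
    simpa using hθ
  · have : etaE ((⟨x, hx⟩ : A) ^ 5 * (m + n * kAE ((⟨x, hx⟩ : A) ^ 5) ((⟨y, hy⟩ : A) ^ 5)) ^ 5)
        ((⟨y, hy⟩ : A) ^ 5 * (m - n * kBE ((⟨x, hx⟩ : A) ^ 5) ((⟨y, hy⟩ : A) ^ 5)) ^ 5)
        = (c₄' : A) := by
      apply Subtype.ext
      rw [← A.subtype_apply, map_etaE]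
      exact hH
    rw [this]
    exact intCast_mem_maximalIdeal A hpA h4
  · have : thetaE ((⟨x, hx⟩ : A) ^ 5 * (m + n * kAE ((⟨x, hx⟩ : A) ^ 5) ((⟨y, hy⟩ : A) ^ 5)) ^ 5)
        ((⟨y, hy⟩ : A) ^ 5 * (m - n * kBE ((⟨x, hx⟩ : A) ^ 5) ((⟨y, hy⟩ : A) ^ 5)) ^ 5)
        = (c₆' : A) := by
      apply Subtype.ext
      rw [← A.subtype_apply, map_thetaE]
      exact hT
    rw [this]
    exact intCast_mem_maximalIdeal A hpA h6

end Combine

section Integers

/-- **Semistability of the family, integer form.**  `(c₄, c₆, Δ)` semistable with `Δ ≠ 0`,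
`(c₄', c₆', Δ')` the invariants at coprime parameters `(m, n)` with `1728·30·Δ ∣ n`,
`D` the value of the degree-12 form: `Δ' = Δ D⁵ ≠ 0` and no prime divides both `Δ'` and `c₄'`.
The Klein-model point `(x, y)` lives in any field `L` having valuation subrings over all
primes. -/
theorem semistable_core {L : Type*} [Field L]
    (hval : ∀ p : ℕ, p.Prime → ∃ A : ValuationSubring L, (p : L) ∈ A.nonunits)
    (c₄ c₆ Δ c₄' c₆' Δ' m n D : ℤ)
    (hrel : 1728 * Δ = c₄ ^ 3 - c₆ ^ 2) (hrel' : 1728 * Δ' = c₄' ^ 3 - c₆' ^ 2)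
    (hΔ : Δ ≠ 0) (hss : ∀ p : ℕ, p.Prime → (p : ℤ) ∣ Δ → ¬ (p : ℤ) ∣ c₄)
    (hH : n ∣ c₄' - c₄ * m ^ 20) (hD : n ∣ D - m ^ 12)
    (hsyz : c₄' ^ 3 - c₆' ^ 2 = (c₄ ^ 3 - c₆ ^ 2) * D ^ 5)
    (hn : 1728 * 30 * Δ ∣ n) (hmn : IsCoprime m n)
    (x y : L) (hη : etaE (x ^ 5) (y ^ 5) = c₄) (hθ : thetaE (x ^ 5) (y ^ 5) = c₆)
    (hH' : etaE (x ^ 5 * (m + n * kAE (x ^ 5) (y ^ 5)) ^ 5)
      (y ^ 5 * (m - n * kBE (x ^ 5) (y ^ 5)) ^ 5) = c₄')
    (hT' : thetaE (x ^ 5 * (m + n * kAE (x ^ 5) (y ^ 5)) ^ 5)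
      (y ^ 5 * (m - n * kBE (x ^ 5) (y ^ 5)) ^ 5) = c₆') :
    Δ' ≠ 0 ∧ ∀ p : ℕ, p.Prime → (p : ℤ) ∣ Δ' → ¬ (p : ℤ) ∣ c₄' := by
  have hΔ' : Δ' = Δ * D ^ 5 := by
    have : (1728 : ℤ) * Δ' = 1728 * (Δ * D ^ 5) := by
      rw [hrel', hsyz, ← hrel]; ring
    exact mul_left_cancel₀ (by norm_num) this
  -- a prime dividing `n` does not divide `m`, nor `D`
  have hpm : ∀ p : ℕ, p.Prime → (p : ℤ) ∣ n → ¬ (p : ℤ) ∣ m := by
    intro p hp hpn hpm
    obtain ⟨a, b, hab⟩ := hmn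
    have h1 : (p : ℤ) ∣ 1 := by
      rw [← hab]
      exact dvd_add (Dvd.dvd.mul_left hpm a) (Dvd.dvd.mul_left hpn b)
    exact (Nat.prime_iff_prime_int.mp hp).not_dvd_one h1
  have hpD : ∀ p : ℕ, p.Prime → (p : ℤ) ∣ n → ¬ (p : ℤ) ∣ D := by
    intro p hp hpn hpD
    have h1 : (p : ℤ) ∣ m ^ 12 := by
      have := dvd_sub hpD (hpn.trans hD)
      simpa using this
    exact hpm p hp hpn ((Nat.prime_iff_prime_int.mp hp).dvd_of_dvd_pow h1)
  have h2n : ((2 : ℕ) : ℤ) ∣ n := by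
    refine dvd_trans ?_ hn
    exact ⟨864 * 30 * Δ, by push_cast; ring⟩
  have hD0 : D ≠ 0 := by
    rintro rfl
    exact hpD 2 Nat.prime_two h2n (dvd_zero _)
  refine ⟨by rw [hΔ']; exact mul_ne_zero hΔ (pow_ne_zero _ hD0), ?_⟩
  intro p hp hpΔ' hp4
  have hpp : Prime (p : ℤ) := Nat.prime_iff_prime_int.mp hp
  have hp6 : (p : ℤ) ∣ c₆' := by
    have h1 : (p : ℤ) ∣ c₆' ^ 2 := by
      have : c₆' ^ 2 = c₄' ^ 3 - 1728 * Δ' := by rw [hrel']; ring
      rw [this]
      exact dvd_sub (dvd_pow hp4 (by norm_num)) (Dvd.dvd.mul_left hpΔ' _)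
    exact hpp.dvd_of_dvd_pow h1
  by_cases hpn : (p : ℤ) ∣ n
  · -- `p ∣ n`
    have hpΔ : (p : ℤ) ∣ Δ := by
      rw [hΔ'] at hpΔ'
      rcases hpp.dvd_or_dvd hpΔ' with h | h
      · exact h
      · exact absurd (hpp.dvd_of_dvd_pow h) (hpD p hp hpn)
    have h1 : (p : ℤ) ∣ c₄ * m ^ 20 := by
      have := dvd_sub hp4 (hpn.trans hH)
      simpa using this
    rcases hpp.dvd_or_dvd h1 with h | h
    · exact hss p hp hpΔ h
    · exact hpm p hp hpn (hpp.dvd_of_dvd_pow h)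
  · -- `p ∤ n`
    have h30 : ¬ (p : ℤ) ∣ 30 := by
      intro h
      apply hpn
      refine dvd_trans h (dvd_trans ?_ hn)
      exact ⟨1728 * Δ, by ring⟩
    have hpΔ : ¬ (p : ℤ) ∣ Δ := by
      intro h
      apply hpn
      refine dvd_trans h (dvd_trans ?_ hn)
      exact ⟨1728 * 30, by ring⟩
    obtain ⟨A, hA⟩ := hval p hp
    exact no_common_prime A hp hA c₄ c₆ Δ m n c₄' c₆' hrel h30 hpΔ hmn x y hη hθ hH' hT' hp4 hp6

end Integers

end Fermat.Agent.S52P.SSCore33
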