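import Mathlib
import Fermat.Prelude.Def_FLTPrelim_Modularity
import Fermat.Agent.Lib.FrobeniusExists
import Fermat.Agent.S52P.Klein.FamCong
import Fermat.Agent.S52P.Klein.FamT
import Fermat.Agent.S52P.Seam
import Fermat.Agent.S52P.SSCore33

/-!
# (SS) of the 3–5 switch: the members of the Klein family are semistable

`ss : SS` (from the statement of (BASE) and (L0)): for a semistable integral model `W` with
`Δ ≠ 0` and coprime parameters `(m, n)` with `1728·30·Δ ∣ n`, every integral model `W'` with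
invariants `(famH c₄ c₆ m n, famT c₄ c₆ m n)` has `Δ' ≠ 0` and is semistable.
The valuation argument is `SSCore33.semistable_core`; the Klein data (`famH_eq`, `famT_eq`,
`fam_syzygy`, `map_fam*`, `dvd_fam*_sub`) is `S52P/Klein/*`.
-/

set_option autoImplicit false

namespace Fermat.Agent.S52P.SS33

open Fermat.Agent.S52P.Klein

section Forms

variable {R : Type*} [CommRing R]

theorem etaE_eq (X Y : R) : SSCore33.etaE X Y = eta X Y := rfl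

theorem thetaE_eq (X Y : R) : SSCore33.thetaE X Y = theta X Y := rfl

theorem kAE_eq (X Y : R) : SSCore33.kAE X Y = kA X Y := rfl

theorem kBE_eq (X Y : R) : SSCore33.kBE X Y = kB X Y := rfl

end Forms

/-- (SS) with a given point `(x, y)` of the Klein model of `(c₄, c₆)` over `ℚ̄`. -/
theorem semistable_of_point (W : WeierstrassCurve ℤ) (hΔ : W.Δ ≠ 0) (hW : W.IsSemistableModel)
    (W' : WeierstrassCurve ℤ) (m n : ℤ) (h4 : W'.c₄ = famH W.c₄ W.c₆ m n)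
    (h6 : W'.c₆ = famT W.c₄ W.c₆ m n) (hn : 1728 * 30 * W.Δ ∣ n) (hmn : IsCoprime m n)
    (x y : AlgebraicClosure ℚ) (hη : eta (x ^ 5) (y ^ 5) = (W.c₄ : AlgebraicClosure ℚ))
    (hθ : theta (x ^ 5) (y ^ 5) = (W.c₆ : AlgebraicClosure ℚ)) :
    W'.Δ ≠ 0 ∧ W'.IsSemistableModel := by
  have hcH : ((W'.c₄ : ℤ) : AlgebraicClosure ℚ) =
      famH ((W.c₄ : ℤ) : AlgebraicClosure ℚ) ((W.c₆ : ℤ) : AlgebraicClosure ℚ) m n := by
    rw [h4]
    simpa using map_famH (Int.castRingHom (AlgebraicClosure ℚ)) W.c₄ W.c₆ m n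
  have hcT : ((W'.c₆ : ℤ) : AlgebraicClosure ℚ) =
      famT ((W.c₄ : ℤ) : AlgebraicClosure ℚ) ((W.c₆ : ℤ) : AlgebraicClosure ℚ) m n := by
    rw [h6]
    simpa using map_famT (Int.castRingHom (AlgebraicClosure ℚ)) W.c₄ W.c₆ m n
  refine SSCore33.semistable_core (L := AlgebraicClosure ℚ)
    (fun p hp => Lib.FrobeniusExists.exists_liesOverPrime hp)
    W.c₄ W.c₆ W.Δ W'.c₄ W'.c₆ W'.Δ m n (famD W.c₄ W.c₆ m n) W.c_relation W'.c_relation hΔ hW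
    ?_ ?_ ?_ hn hmn x y hη hθ ?_ ?_
  · rw [h4]; exact dvd_famH_sub _ _ _ _
  · exact dvd_famD_sub _ _ _ _
  · rw [h4, h6]; exact fam_syzygy _ _ _ _
  · rw [etaE_eq, kAE_eq, kBE_eq, famH_eq, hη, hθ, hcH]
  · rw [thetaE_eq, kAE_eq, kBE_eq, famT_eq, hη, hθ, hcT]

/-- **(SS)**, row P-SS: from the statement of (BASE) and (L0). -/
theorem ss
    (hB : ∀ c₄ c₆ : ℤ, c₄ ≠ 0 → c₆ ≠ 0 → c₄ ^ 3 ≠ c₆ ^ 2 →
      ∃ x₀ y₀ : AlgebraicClosure ℚ, eta (x₀ ^ 5) (y₀ ^ 5) = (c₄ : AlgebraicClosure ℚ) ∧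
        theta (x₀ ^ 5) (y₀ ^ 5) = (c₆ : AlgebraicClosure ℚ))
    (h0 : L0) : SS := by
  intro W hΔ hW W' m n h4 h6 hn hmn
  obtain ⟨hc4, hc6⟩ := h0 W hΔ hW
  have hd : W.c₄ ^ 3 ≠ W.c₆ ^ 2 := by
    intro h
    have hrel := W.c_relation
    rw [h, sub_self] at hrel
    rcases mul_eq_zero.mp hrel with h' | h'
    · norm_num at h'
    · exact hΔ h'
  obtain ⟨x, y, hη, hθ⟩ := hB W.c₄ W.c₆ hc4 hc6 hd
  exact semistable_of_point W hΔ hW W' m n h4 h6 hn hmn x y hη hθ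

/-- (SS) in the literal of the design (#4468), from the statement of (BASE) and (L0). -/
theorem semistable_of
    (hB : ∀ c₄ c₆ : ℤ, c₄ ≠ 0 → c₆ ≠ 0 → c₄ ^ 3 ≠ c₆ ^ 2 →
      ∃ x₀ y₀ : AlgebraicClosure ℚ, eta (x₀ ^ 5) (y₀ ^ 5) = (c₄ : AlgebraicClosure ℚ) ∧
        theta (x₀ ^ 5) (y₀ ^ 5) = (c₆ : AlgebraicClosure ℚ))
    (h0 : L0) (W : WeierstrassCurve ℤ) (hΔ : W.Δ ≠ 0) (hW : W.IsSemistableModel)
    (W' : WeierstrassCurve ℤ) (m n : ℤ) (h4 : W'.c₄ = famH W.c₄ W.c₆ m n)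
    (h6 : W'.c₆ = famT W.c₄ W.c₆ m n) (hn : 1728 * 30 * W.Δ ∣ n) (hmn : IsCoprime m n) :
    W'.Δ ≠ 0 ∧ W'.IsSemistableModel :=
  ss hB h0 W hΔ hW W' m n h4 h6 hn hmn

end Fermat.Agent.S52P.SS33
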